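/-
Programme T1B (row 38 / S44), cell R1 (hub plug of the per-level node family), helper36:
**TRANSPORT OF THE NODE PLACES OF A CHART ALONG A CHART ISOMORPHISM.**

Two charts `B`, `B'` of the same function field `F` (same branches `O₁`, `O₂`, same residue map
`res₁ : O₁ →+* k`), `σ : B ≃+* B'` compatible with the maps to `F` (in the application `B` is the
tensor chart `O_L ⊗[W] B0` of `R1Asm2.rho_of_level`, `B'` the subalgebra chart `B0 A q htL` over `L`,
`σ` helper23's `equiv0NF`).  For `Hc' : ChartHyp π' O₁ O₂` on `B'` and its transport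
`Hc'.of_equiv σ hσ : ChartHyp (σ.symm π') O₁ O₂` on `B` (helper80):

* `resChart_of_equiv`  : `resChart res₁ _ b = resChart res₁ _ (σ b)`;
* `hasCentre_of_equiv_iff` : `HasCentre (Hc'.of_equiv σ hσ) res₁ v ↔ HasCentre Hc' res₁ v`;
* `cen_of_equiv`       : the centre on `B` is the comap of the centre on `B'`;
* **`twoBranch_of_equiv_iff`** : `TwoBranch (Hc'.of_equiv σ hσ) res₁ v ↔ TwoBranch Hc' res₁ v`;
* `hP_of_equiv`        : an intrinsic predicate `P` for the chart `B'` is one for the chart `B`
  (the hypothesis `hP` of `Brandt55.idealP_*`, which produce the binders `𝔪 hoff₁ hoff₂ H₁ HP` of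
  `R1Asm2.rho_of_level`).
-/
import Mathlib
import Fermat.Agent.T1B.Brandt96.CentrePkg

set_option autoImplicit false
set_option linter.unusedSectionVars false
set_option linter.unusedVariables false
set_option linter.style.haveILetI false

namespace Fermat.Agent.T1B.R1Hub36

open AlgebraicCurve IsLocalRing Fermat.Agent.T1.Peu37.NodeClassGroup Fermat.Agent.T1B.Hol80
  Fermat.Agent.T1B.NodeNF37.Local Fermat.Agent.T1B.NodeNF37.UnifOrd Fermat.Agent.T1B.Brandt96

variable {B B' F : Type*} [CommRing B] [IsDomain B] [CommRing B'] [IsDomain B'] [Field F]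
  [Algebra B F] [Algebra B' F]
variable {κ k : Type*} [Field κ] [Field k] [Algebra κ k]
variable (σ : B ≃+* B') (hσ : ∀ b, algebraMap B' F (σ b) = algebraMap B F b)
variable {π' : B'} {O₁ O₂ : ValuationSubring F} (Hc' : ChartHyp π' O₁ O₂) (res₁ : ↥O₁ →+* k)

/-- The residue maps of the two charts correspond under `σ`. -/
theorem resChart_of_equiv (b : B) :
    resChart res₁ (Hc'.of_equiv σ hσ).le₁ b = resChart res₁ Hc'.le₁ (σ b) := by
  show res₁ (toO O₁ (algebraMap B F) (Hc'.of_equiv σ hσ).le₁ b) =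
    res₁ (toO O₁ (algebraMap B' F) Hc'.le₁ (σ b))
  congr 1
  exact Subtype.ext (hσ b).symm

/-- `HasCentre` does not depend on the presentation of the chart. -/
theorem hasCentre_of_equiv_iff (v : Place κ k) :
    HasCentre (Hc'.of_equiv σ hσ) res₁ v ↔ HasCentre Hc' res₁ v := by
  constructor
  · intro h b'
    have := h (σ.symm b')
    rw [resChart_of_equiv σ hσ Hc' res₁, σ.apply_symm_apply] at this
    exact this
  · intro h b
    rw [resChart_of_equiv σ hσ Hc' res₁]
    exact h (σ b)

/-- The centre on `B` is the comap of the centre on `B'`. -/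
theorem cen_of_equiv (v : Place κ k) (hcen : HasCentre (Hc'.of_equiv σ hσ) res₁ v)
    (hcen' : HasCentre Hc' res₁ v) :
    cen (Hc'.of_equiv σ hσ) res₁ v hcen = (cen Hc' res₁ v hcen').comap (σ : B →+* B') := by
  ext b
  rw [Ideal.mem_comap, mem_cen_iff, mem_cen_iff, RingEquiv.coe_toRingHom,
    resChart_of_equiv σ hσ Hc' res₁]

/-- **The node places of a chart do not depend on its presentation.** -/
theorem twoBranch_of_equiv_iff (v : Place κ k) :
    TwoBranch (Hc'.of_equiv σ hσ) res₁ v ↔ TwoBranch Hc' res₁ v := by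
  constructor
  · rintro ⟨hcen, hoff⟩
    have hcen' : HasCentre Hc' res₁ v := (hasCentre_of_equiv_iff σ hσ Hc' res₁ v).1 hcen
    refine ⟨hcen', fun h => hoff ?_⟩
    rw [cen_of_equiv σ hσ Hc' res₁ v hcen hcen']
    exact (off_comap_iff σ hσ _).2 h
  · rintro ⟨hcen', hoff'⟩
    have hcen : HasCentre (Hc'.of_equiv σ hσ) res₁ v :=
      (hasCentre_of_equiv_iff σ hσ Hc' res₁ v).2 hcen'
    refine ⟨hcen, fun h => hoff' ?_⟩
    rw [cen_of_equiv σ hσ Hc' res₁ v hcen hcen'] at h
    exact (off_comap_iff σ hσ _).1 h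

/-- An intrinsic predicate for the chart `B'` is one for the chart `B`. -/
theorem hP_of_equiv {P : Place κ k → Prop} (hP : ∀ v : Place κ k, P v ↔ TwoBranch Hc' res₁ v)
    (v : Place κ k) : P v ↔ TwoBranch (Hc'.of_equiv σ hσ) res₁ v := by
  rw [hP v, twoBranch_of_equiv_iff σ hσ Hc' res₁ v]

include hσ in
/-- The same for any `ChartHyp` on `B` with the same uniformiser (proof irrelevance makes the
statement independent of how the `ChartHyp` on `B` was obtained). -/
theorem hP_of_equiv' {π : B} (Hc : ChartHyp π O₁ O₂) (hπ : π = σ.symm π')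
    {P : Place κ k → Prop} (hP : ∀ v : Place κ k, P v ↔ TwoBranch Hc' res₁ v)
    (v : Place κ k) : P v ↔ TwoBranch Hc res₁ v := by
  subst hπ
  exact hP_of_equiv σ hσ Hc' res₁ hP v

end Fermat.Agent.T1B.R1Hub36
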